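/-
S26 / endgame P, block DG, leaf C1 (helper279): the pull-back of effective Cartier data cuts out the
pull-back of the closed subscheme.
-/
import Fermat.Agent.S26.Quad.Nodes

set_option autoImplicit false

universe u

open CategoryTheory CategoryTheory.Limits AlgebraicGeometry

namespace Fermat.Agent.S26.DG

/-- In a pushout square of commutative rings with `β` surjective, the kernel of the map opposite to
`β` is generated by the image of the kernel of `β`. -/
theorem ker_of_isPushout {R R' T P : CommRingCat.{u}} {α : R ⟶ R'} {β : R ⟶ T} {α' : R' ⟶ P}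
    {β' : T ⟶ P} (h : IsPushout α β α' β') (hβ : Function.Surjective β.hom) :
    RingHom.ker α'.hom = (RingHom.ker β.hom).map α.hom := by
  apply le_antisymm
  · set J := (RingHom.ker β.hom).map α.hom with hJ
    let q : R' ⟶ CommRingCat.of (R' ⧸ J) := CommRingCat.ofHom (Ideal.Quotient.mk J)
    let g : {g : R →+* R' ⧸ J // RingHom.ker β.hom ≤ RingHom.ker g} :=
      ⟨(Ideal.Quotient.mk J).comp α.hom, fun r hr => by
        rw [RingHom.mem_ker, RingHom.comp_apply, Ideal.Quotient.eq_zero_iff_mem]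
        exact Ideal.mem_map_of_mem _ hr⟩
    let l₀ : T →+* R' ⧸ J := RingHom.liftOfRightInverse β.hom (Function.surjInv hβ)
      (Function.rightInverse_surjInv hβ) g
    have hl₀ : l₀.comp β.hom = g.1 := RingHom.liftOfRightInverse_comp _ _ _ g
    let l : T ⟶ CommRingCat.of (R' ⧸ J) := CommRingCat.ofHom l₀
    have hw : α ≫ q = β ≫ l := by
      ext r
      exact (congrArg (fun f : R →+* R' ⧸ J => f r) hl₀).symm
    intro x hx
    have h1 : α' ≫ h.desc q l hw = q := h.inl_desc q l hw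
    have h2 : q.hom x = 0 := by
      rw [← h1, CommRingCat.comp_apply]
      rw [RingHom.mem_ker] at hx
      change (h.desc q l hw).hom (α'.hom x) = 0
      rw [hx, map_zero]
    exact Ideal.Quotient.eq_zero_iff_mem.1 h2
  · rw [Ideal.map_le_iff_le_comap]
    intro r hr
    rw [Ideal.mem_comap, RingHom.mem_ker]
    have h1 : α'.hom (α.hom r) = β'.hom (β.hom r) := congrArg (fun f => f.hom r) h.w
    rw [h1, (RingHom.mem_ker).1 hr, map_zero]

/-- The ideal of the pull-back of a closed immersion, on affine opens `V ≤ φ ⁻¹ᵁ U`. -/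
theorem ker_fst_ideal {X' X Z : Scheme.{u}} (φ : X' ⟶ X) (j : Z ⟶ X) [IsClosedImmersion j]
    (U : X.affineOpens) (V : X'.affineOpens) (e : V.1 ≤ φ ⁻¹ᵁ U.1) :
    (pullback.fst φ j).ker.ideal V = (j.ker.ideal U).map (φ.appLE U.1 V.1 e).hom := by
  have H := IsPullback.of_hasPullback φ j
  have hUST : j ⁻¹ᵁ U.1 ≤ j ⁻¹ᵁ U.1 := le_rfl
  have hUY : pullback.fst φ j ⁻¹ᵁ V.1 =
      pullback.fst φ j ⁻¹ᵁ V.1 ⊓ pullback.snd φ j ⁻¹ᵁ (j ⁻¹ᵁ U.1) := by
    symm
    rw [inf_eq_left]
    intro z hz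
    change j (pullback.snd φ j z) ∈ U.1
    rw [← Scheme.Hom.comp_apply, ← pullback.condition, Scheme.Hom.comp_apply]
    exact e hz
  have hiso := isIso_pushoutSection_of_isAffineOpen H hUST e hUY U.2 (U.2.preimage j) V.2
  have hpo := (isIso_pushoutSection_iff H hUST e hUY).mp hiso
  rw [Scheme.Hom.appLE_eq_app, Scheme.Hom.appLE_eq_app] at hpo
  rw [Scheme.Hom.ker_apply, Scheme.Hom.ker_apply]
  exact ker_of_isPushout hpo (j.app_surjective U.1 U.2)

/-- C1: the pull-back of effective Cartier data cuts out the pull-back of the closed subscheme. -/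
theorem cuts_pullback {X' X Z : Scheme.{u}} [IsIntegral X'] [IsIntegral X] (φ : X' ⟶ X)
    (D : ECD X) (E : ECD X') (j : Z ⟶ X) [IsClosedImmersion j] (hD : D.Cuts j)
    (hE : ECD.IsPull φ D E) : E.Cuts (pullback.fst φ j) := by
  intro y
  obtain ⟨U, hyU, f, hf, hfθ⟩ := hD (φ y)
  obtain ⟨V, hV, hyV, hVU⟩ := exists_isAffineOpen_mem_and_subset (U := φ ⁻¹ᵁ U.1) (x := y) hyU
  refine ⟨⟨V, hV⟩, hyV, (φ.appLE U.1 V hVU).hom f, ?_, ?_⟩
  · rw [ker_fst_ideal φ j U ⟨V, hV⟩ hVU, hf, Ideal.map_span, Set.image_singleton]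
  · rw [hE y, ← hfθ]
    have h1 : φ.appLE U.1 V hVU ≫ X'.presheaf.germ V y hyV =
        X.presheaf.germ U.1 (φ y) hyU ≫ φ.stalkMap y := by
      simp only [Scheme.Hom.appLE, Category.assoc, X'.presheaf.germ_res']
      exact (Scheme.Hom.germ_stalkMap φ U.1 y hyU).symm
    exact congrArg (fun g => g.hom f) h1

end Fermat.Agent.S26.DG
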